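import Fermat.Agent.SupersingularFermat.PureGauss
import Fermat.Agent.PowerReciprocity.JacobiPrime
import Fermat.Agent.PowerReciprocity.FermatPoints

/-!
# The criterion of Shafarevich and Tate

At `P ∤ l` of `ℚ(ζ_l)`, of residue degree `f`: if `f = 2 h` then `p ^ h ≡ -1 (mod l)` and `J_{a,b}(P) = -p ^ h`; if
some power of `J ^ 2 / N P` is `1`, comparing the orders at `P` gives `2 ∑ e = f`, so `f` is even.
-/

set_option autoImplicit false
set_option linter.unusedSectionVars false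

noncomputable section

open NumberField IsDedekindDomain UniqueFactorizationMonoid
open scoped Classical

namespace FA.SupersingularFermat

open FA.PowerReciprocity FA.GaussValuation FA.IwasawaStructure FA.FermatCount

variable {K : Type*} [Field K] [NumberField K] {l : ℕ} [hl : Fact l.Prime] [IsCyclotomicExtension {l} ℚ K]

theorem dvd_pow_half_add_one {p h : ℕ} (hpl : ¬ l ∣ p) (hord : orderOf (p : ZMod l) = 2 * h) :
    0 < h ∧ l ∣ p ^ h + 1 := by
  have hp0 : (p : ZMod l) ≠ 0 := fun e => hpl ((ZMod.natCast_eq_zero_iff p l).mp e)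
  have hfin : 0 < orderOf (p : ZMod l) := orderOf_pos_iff.mpr
    (isOfFinOrder_iff_pow_eq_one.mpr ⟨l - 1, by have := hl.out.two_le; omega, ZMod.pow_card_sub_one_eq_one hp0⟩)
  have hh : 0 < h := by omega
  refine ⟨hh, ?_⟩
  rw [← ZMod.natCast_eq_zero_iff, Nat.cast_add, Nat.cast_pow, Nat.cast_one, add_eq_zero_iff_eq_neg]
  refine (mul_self_eq_one_iff.mp ?_).resolve_left fun e => ?_
  · rw [← pow_add, ← two_mul, ← hord, pow_orderOf_eq_one]
  · have := Nat.le_of_dvd hh (orderOf_dvd_of_pow_eq_one e)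
    omega

theorem jacobiPrime_of_even (hl2 : l ≠ 2) {P : Ideal (𝓞 K)} [hP : P.IsMaximal] (hlP : (l : 𝓞 K) ∉ P) {p h : ℕ}
    [hp : Fact p.Prime] (hpP : (p : 𝓞 K) ∈ P) (hord : orderOf (p : ZMod l) = 2 * h) {a b : ℕ} (ha : ¬ l ∣ a)
    (hb : ¬ l ∣ b) (hab : ¬ l ∣ a + b) : jacobiPrime l a b P = -(p : 𝓞 K) ^ h := by
  have hpl' : ¬ p ∣ l := fun e => hlP (by
    obtain ⟨c, rfl⟩ := e
    rw [Nat.cast_mul]
    exact P.mul_mem_right _ hpP)
  have hpl : ¬ l ∣ p := fun e => hpl' (by rw [(Nat.prime_dvd_prime_iff_eq hl.out hp.out).mp e])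
  obtain ⟨hh, hdvd⟩ := dvd_pow_half_add_one hpl hord
  let v : HeightOneSpectrum (𝓞 K) :=
    ⟨P, hP.isPrime, Ring.ne_bot_of_isMaximal_of_not_isField hP (RingOfIntegers.not_isField K)⟩
  have : NeZero l := ⟨hl.out.ne_zero⟩
  have hN : Ideal.absNorm P = p ^ (2 * h) := hord ▸ absNorm_eq (v := v) hpP hpl'
  let := Fintype.ofFinite (𝓞 K ⧸ P)
  let := Ideal.Quotient.field P
  have : CharP (𝓞 K ⧸ P) p := by
    refine (CharP.charP_iff_prime_eq_zero hp.out).mpr ?_
    rw [← map_natCast (Ideal.Quotient.mk P), Ideal.Quotient.eq_zero_iff_mem]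
    exact hpP
  let := ZMod.algebra (𝓞 K ⧸ P) p
  have hF : Module.finrank (ZMod p) (𝓞 K ⧸ P) = 2 * h := by
    refine Nat.pow_right_injective hp.out.two_le ?_
    have h1 := Module.card_eq_pow_finrank (K := ZMod p) (V := 𝓞 K ⧸ P)
    rw [card_quotient, hN, ZMod.card] at h1
    exact h1.symm
  have hG : Module.finrank (ZMod p) (GaloisField p h) = h := GaloisField.finrank p hh.ne'
  obtain ⟨ι⟩ : Nonempty (GaloisField p h →ₐ[ZMod p] 𝓞 K ⧸ P) :=
    FiniteField.nonempty_algHom_of_finrank_dvd (by rw [hF, hG]; exact dvd_mul_left h 2)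
  let := ι.toRingHom.toAlgebra
  let := Fintype.ofFinite (GaloisField p h)
  have hG' : Fintype.card (GaloisField p h) = p ^ h := by
    rw [← Nat.card_eq_fintype_card, GaloisField.card p h hh.ne']
  have h2 : Module.finrank (GaloisField p h) (𝓞 K ⧸ P) = 2 := by
    have h1 := Module.card_eq_pow_finrank (K := GaloisField p h) (V := 𝓞 K ⧸ P)
    rw [card_quotient, hN, hG', ← pow_mul] at h1
    exact Nat.eq_of_mul_eq_mul_left hh ((Nat.pow_right_injective hp.out.two_le h1).symm.trans (mul_comm 2 h))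
  obtain ⟨χ, hχ⟩ := exists_symbolChar hl2 hlP
  obtain ⟨φ⟩ : Nonempty (K →+* ℂ) := inferInstance
  set g := φ.comp (algebraMap (𝓞 K) K)
  have hinj : Function.Injective g := φ.injective.comp RingOfIntegers.coe_injective
  have hne : ∀ c, ¬ l ∣ c → (χ ^ c).ringHomComp g ≠ 1 := fun c hc =>
    (MulChar.ringHomComp_ne_one_iff hinj).mpr (char_pow_ne_one hlP hχ hc)
  have htriv : ∀ c, TrivialOn (GaloisField p h) ((χ ^ c).ringHomComp g) := fun c =>
    trivialOn_of_pow_eq_one h2 (n := l) (by rwa [hG']) (by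
      rw [MulChar.ringHomComp_pow, ← pow_mul, mul_comm, pow_mul, char_pow_card hlP hχ, one_pow,
        MulChar.ringHomComp_one])
  refine hinj ?_
  rw [jacobiPrime_eq hχ (show a ≠ 0 from fun e => ha (e ▸ dvd_zero l))
    (show b ≠ 0 from fun e => hb (e ▸ dvd_zero l)), map_neg, map_neg,
    ← jacobiSum_ringHomComp, jacobiSum_pure h2 (hne a ha) (hne b hb)
      (by rw [← MulChar.ringHomComp_mul, ← pow_add]; exact hne _ hab) (htriv a) (htriv b),
    hG', map_pow, map_natCast, Nat.cast_pow]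

/-- **Some power of `J ^ 2 / N P` is `1` only in even residue degree.** -/
theorem even_of_pow_eq (hl2 : l ≠ 2) {P : Ideal (𝓞 K)} [hP : P.IsMaximal] (hlP : (l : 𝓞 K) ∉ P) {p : ℕ}
    [hp : Fact p.Prime] (hpP : (p : 𝓞 K) ∈ P) {a b : ℕ} (ha : ¬ l ∣ a) (hb : ¬ l ∣ b) (hab : ¬ l ∣ a + b) {k : ℕ}
    (hk : 0 < k) (h : jacobiPrime l a b P ^ (2 * k) = ((Ideal.absNorm P : ℕ) : 𝓞 K) ^ k) :
    Even (orderOf (p : ZMod l)) := by
  have : NeZero l := ⟨hl.out.ne_zero⟩
  have hpl : ¬ p ∣ l := fun e => hlP (by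
    obtain ⟨c, rfl⟩ := e
    rw [Nat.cast_mul]
    exact P.mul_mem_right _ hpP)
  let v : HeightOneSpectrum (𝓞 K) :=
    ⟨P, hP.isPrime, Ring.ne_bot_of_isMaximal_of_not_isField hP (RingOfIntegers.not_isField K)⟩
  obtain ⟨h1, -, -⟩ := jacobiPrime_spec hl2 hlP ha hb hab
  have key : ∏ σ : K ≃ₐ[ℚ] K, (conjAt v σ).asIdeal ^ (cmExpo l a b (expo l σ) * (2 * k)) =
      ∏ σ : K ≃ₐ[ℚ] K, (conjAt v σ).asIdeal ^ k := by
    have h2 := congrArg (fun x : 𝓞 K => Ideal.span {x}) h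
    simp only [← Ideal.span_singleton_pow, h1, cmIdeal, ← Finset.prod_pow, ← pow_mul] at h2
    rw [absNorm_eq (v := v) hpP hpl, Nat.cast_pow, ← prod_conjAt_eq_span_pow (v := v) hpP hpl,
      ← Finset.prod_pow] at h2
    exact h2
  have hc := congrArg (fun I => (normalizedFactors I).count (conjAt v 1).asIdeal) key
  simp only [count_prod_pow] at hc
  simp_rw [← HeightOneSpectrum.ext_iff] at hc
  rw [sum_fibre (v := v) hpP hpl 1 fun t => cmExpo l a b t * (2 * k), sum_fibre (v := v) hpP hpl 1 fun _ => k,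
    ← Finset.sum_mul, Finset.sum_const, Finset.card_range, smul_eq_mul] at hc
  exact ⟨_, Nat.eq_of_mul_eq_mul_right hk (hc.symm.trans (by ring))⟩

end FA.SupersingularFermat
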