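import Fermat.Agent.DavenportHasse.Fermat
import Mathlib.LinearAlgebra.FiniteDimensional.Lemmas

/-!
# Stickelberger's pure Gauss sums

Let `F / F₀` be quadratic, `q₀ = #F₀`, and `χ` a nontrivial character of `F` trivial on `F₀ˣ`. Averaging `x ↦ c x`
over `F₀ˣ` leaves the line of the elements of trace `0`: `g(χ, ψ₀ ∘ Tr) = q₀ χ(x₀)`. So all Jacobi sums of such
characters with nontrivial product are `q₀`.
-/

set_option autoImplicit false
set_option linter.unusedSectionVars false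

noncomputable section

open Finset
open scoped Classical

namespace FA.SupersingularFermat

open FA.DavenportHasse FA.FermatCount

variable {F₀ F : Type*} [Field F₀] [Fintype F₀] [Field F] [Fintype F] [Algebra F₀ F]

/-- Trivial on `F₀ˣ`. -/
def TrivialOn (F₀ : Type*) [Field F₀] [Algebra F₀ F] (χ : MulChar F ℂ) : Prop :=
  ∀ c : F₀, c ≠ 0 → χ (algebraMap F₀ F c) = 1

theorem TrivialOn.mul {χ φ : MulChar F ℂ} (hχ : TrivialOn F₀ χ) (hφ : TrivialOn F₀ φ) : TrivialOn F₀ (χ * φ) :=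
  fun c hc => by rw [MulChar.mul_apply, hχ c hc, hφ c hc, one_mul]

theorem card_eq_sq (h2 : Module.finrank F₀ F = 2) : Fintype.card F = Fintype.card F₀ ^ 2 := by
  rw [card_pow_finrank (F := F₀) F, h2]

/-- A character killed by a divisor of `q₀ + 1` is trivial on `F₀ˣ`. -/
theorem trivialOn_of_pow_eq_one (h2 : Module.finrank F₀ F = 2) {n : ℕ} (hn : n ∣ Fintype.card F₀ + 1)
    {χ : MulChar F ℂ} (hχ : χ ^ n = 1) : TrivialOn F₀ χ := fun c hc => by
  obtain ⟨y, hy⟩ := FiniteField.norm_surjective F₀ F c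
  have hy0 : y ≠ 0 := fun e => hc (by rw [← hy, e, Algebra.norm_zero])
  have h1 := Fintype.one_lt_card (α := F₀)
  have hexp : (Fintype.card F - 1) / (Fintype.card F₀ - 1) = Fintype.card F₀ + 1 := by
    rw [card_eq_sq h2, show Fintype.card F₀ ^ 2 - 1 = (Fintype.card F₀ + 1) * (Fintype.card F₀ - 1) by
      simpa using Nat.sq_sub_sq (Fintype.card F₀) 1, Nat.mul_div_cancel _ (by omega)]
  rw [← hy, FiniteField.algebraMap_norm_eq_pow, Nat.card_eq_fintype_card, Nat.card_eq_fintype_card, hexp, map_pow,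
    ← Units.val_mk0 hy0, ← MulChar.pow_apply_coe]
  obtain ⟨k, hk⟩ := hn
  rw [hk, pow_mul, hχ, one_pow, MulChar.one_apply_coe]

theorem exists_trace_zero (h2 : Module.finrank F₀ F = 2) :
    ∃ x₀ : F, x₀ ≠ 0 ∧ Algebra.trace F₀ F x₀ = 0 := by
  have h := LinearMap.finrank_range_add_finrank_ker (Algebra.trace F₀ F)
  have h1 := Submodule.finrank_le (LinearMap.range (Algebra.trace F₀ F))
  rw [Module.finrank_self] at h1
  have hk : LinearMap.ker (Algebra.trace F₀ F) ≠ ⊥ := fun e => by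
    rw [e, finrank_bot, h2] at h
    omega
  obtain ⟨x, hx, hx0⟩ := (Submodule.ne_bot_iff _).mp hk
  exact ⟨x, hx0, hx⟩

theorem filter_trace_zero (h2 : Module.finrank F₀ F = 2) {x₀ : F} (hx₀ : x₀ ≠ 0)
    (ht : Algebra.trace F₀ F x₀ = 0) :
    (Finset.univ.filter fun x : F => Algebra.trace F₀ F x = 0) =
      Finset.univ.image fun c : F₀ => algebraMap F₀ F c * x₀ := by
  have h := LinearMap.finrank_range_add_finrank_ker (Algebra.trace F₀ F)
  rw [LinearMap.range_eq_top.mpr (Algebra.trace_surjective F₀ F), finrank_top, Module.finrank_self, h2] at h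
  have hk : Submodule.span F₀ {x₀} = LinearMap.ker (Algebra.trace F₀ F) := by
    refine Submodule.eq_of_le_of_finrank_eq ((Submodule.span_singleton_le_iff_mem _ _).mpr ht) ?_
    rw [finrank_span_singleton hx₀]
    omega
  ext x
  simp only [Finset.mem_filter, Finset.mem_univ, true_and, Finset.mem_image]
  rw [← LinearMap.mem_ker, ← hk, Submodule.mem_span_singleton]
  simp only [Algebra.smul_def]

/-- **Stickelberger: a pure Gauss sum.** -/
theorem gaussSum_pure (h2 : Module.finrank F₀ F = 2) {χ : MulChar F ℂ} (hχ : χ ≠ 1) (h : TrivialOn F₀ χ)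
    {ψ₀ : AddChar F₀ ℂ} (hψ : ψ₀.IsPrimitive) {x₀ : F} (hx₀ : x₀ ≠ 0) (ht : Algebra.trace F₀ F x₀ = 0) :
    gaussSum χ (traceAddChar F ψ₀) = Fintype.card F₀ * χ x₀ := by
  set T := Algebra.trace F₀ F with hT
  have hline : ∑ x ∈ Finset.univ.filter (fun x : F => T x = 0), χ x = ((Fintype.card F₀ : ℂ) - 1) * χ x₀ := by
    rw [filter_trace_zero h2 hx₀ ht, Finset.sum_image fun c _ d _ e => (algebraMap F₀ F).injective
      (mul_right_cancel₀ hx₀ e), ← Finset.add_sum_erase _ _ (Finset.mem_univ (0 : F₀)), map_zero, zero_mul,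
      MulChar.map_zero, zero_add, Finset.sum_congr rfl fun c hc => by
        rw [map_mul, h c (Finset.ne_of_mem_erase hc), one_mul],
      Finset.sum_const, Finset.card_erase_of_mem (Finset.mem_univ _), Finset.card_univ, nsmul_eq_mul,
      Nat.cast_sub Fintype.card_pos, Nat.cast_one]
  have hsum : ∀ y : F, ∑ c ∈ Finset.univ.erase (0 : F₀), ψ₀ (c * T y) =
      (if T y = 0 then (Fintype.card F₀ : ℂ) else 0) - 1 := fun y => by
    rw [Finset.sum_erase_eq_sub (Finset.mem_univ _), AddChar.sum_mulShift _ hψ, zero_mul, AddChar.map_zero_eq_one]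
    split_ifs <;> simp
  have hshift : ∀ c ∈ Finset.univ.erase (0 : F₀), ∑ x, χ x * ψ₀ (c * T x) = gaussSum χ (traceAddChar F ψ₀) :=
    fun c hc => by
    have hc0 : algebraMap F₀ F c ≠ 0 := (map_ne_zero_iff _ (algebraMap F₀ F).injective).mpr
      (Finset.ne_of_mem_erase hc)
    refine Fintype.sum_equiv (Equiv.mulLeft₀ _ hc0) _ _ fun x => ?_
    show _ = χ (algebraMap F₀ F c * x) * ψ₀ (T (algebraMap F₀ F c * x))
    rw [map_mul χ, h c (Finset.ne_of_mem_erase hc), one_mul, ← Algebra.smul_def, map_smul, smul_eq_mul]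
  have hq : ((Fintype.card F₀ : ℂ) - 1) ≠ 0 := sub_ne_zero.mpr (by exact_mod_cast Fintype.one_lt_card.ne')
  refine mul_left_cancel₀ hq ?_
  calc ((Fintype.card F₀ : ℂ) - 1) * gaussSum χ (traceAddChar F ψ₀)
      = ∑ c ∈ Finset.univ.erase (0 : F₀), ∑ x, χ x * ψ₀ (c * T x) := by
        rw [Finset.sum_congr rfl hshift, Finset.sum_const, Finset.card_erase_of_mem (Finset.mem_univ _),
          Finset.card_univ, nsmul_eq_mul, Nat.cast_sub Fintype.card_pos, Nat.cast_one]
    _ = ∑ x, χ x * ((if T x = 0 then (Fintype.card F₀ : ℂ) else 0) - 1) := by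
        rw [Finset.sum_comm]
        exact Finset.sum_congr rfl fun x _ => by rw [← Finset.mul_sum, hsum]
    _ = (Fintype.card F₀ : ℂ) * ∑ x ∈ Finset.univ.filter (fun x : F => T x = 0), χ x := by
        simp only [mul_sub, mul_one]
        rw [Finset.sum_sub_distrib, MulChar.sum_eq_zero_of_ne_one hχ, sub_zero, Finset.mul_sum, Finset.sum_filter]
        exact Finset.sum_congr rfl fun x _ => by split_ifs <;> ring
    _ = _ := by rw [hline]; ring

/-- **Every such Jacobi sum is `q₀`.** -/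
theorem jacobiSum_pure (h2 : Module.finrank F₀ F = 2) {χ φ : MulChar F ℂ} (hχ : χ ≠ 1) (hφ : φ ≠ 1)
    (hχφ : χ * φ ≠ 1) (h : TrivialOn F₀ χ) (h' : TrivialOn F₀ φ) : jacobiSum χ φ = Fintype.card F₀ := by
  obtain ⟨x₀, hx₀, ht⟩ := exists_trace_zero (F := F) h2
  set ψ := AddChar.FiniteField.primitiveChar_to_Complex F₀
  have hψ : ψ.IsPrimitive := AddChar.FiniteField.primitiveChar_to_Complex_isPrimitive F₀
  have key := jacobiSum_mul_nontrivial hχφ (traceAddChar F ψ)
  rw [gaussSum_pure h2 hχ h hψ hx₀ ht, gaussSum_pure h2 hφ h' hψ hx₀ ht, gaussSum_pure h2 hχφ (h.mul h') hψ hx₀ ht,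
    MulChar.mul_apply] at key
  have hne : (Fintype.card F₀ : ℂ) * (χ x₀ * φ x₀) ≠ 0 :=
    mul_ne_zero (Nat.cast_ne_zero.mpr Fintype.card_ne_zero) (mul_ne_zero ((IsUnit.map χ
      (isUnit_iff_ne_zero.mpr hx₀)).ne_zero) ((IsUnit.map φ (isUnit_iff_ne_zero.mpr hx₀)).ne_zero))
  refine mul_left_cancel₀ hne (key.trans ?_)
  ring

end FA.SupersingularFermat
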