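import Fermat.Agent.SupersingularFermat.PureGauss
import Fermat.Agent.DiagonalHypersurface.Zeta

/-!
# Maximal Fermat varieties

For `n ∣ q₀ + 1` over the field of `q₀ ^ 2` elements every Jacobi sum is `q₀`, so the Fermat curve attains Weil's
bound and all the middle eigenvalues of a Fermat hypersurface with coefficients in `F₀` are `(-q₀) ^ m / q₀ ^ 2`.
-/

set_option autoImplicit false
set_option linter.unusedSectionVars false

noncomputable section

open Finset
open scoped Classical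

namespace FA.SupersingularFermat

open FA.DavenportHasse FA.FermatCount FA.DiagonalHypersurface

variable {F₀ F : Type*} [Field F₀] [Fintype F₀] [Field F] [Fintype F] [Algebra F₀ F] {n m : ℕ}

theorem dvd_card_sub_one (h2 : Module.finrank F₀ F = 2) (hn : n ∣ Fintype.card F₀ + 1) :
    n ∣ Fintype.card F - 1 := by
  rw [card_eq_sq h2, show Fintype.card F₀ ^ 2 - 1 = (Fintype.card F₀ + 1) * (Fintype.card F₀ - 1) by
    simpa using Nat.sq_sub_sq (Fintype.card F₀) 1]
  exact hn.mul_right _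

/-- **The points of the Fermat curve over every extension.** -/
theorem fermatPoints_supersingular (h2 : Module.finrank F₀ F = 2) (hn0 : 0 < n) (hn : n ∣ Fintype.card F₀ + 1)
    (E : Type*) [Field E] [Fintype E] [Algebra F E] :
    (fermatPoints E n : ℂ) = (Fintype.card F : ℂ) ^ Module.finrank F E + 1 -
      ((n - 1) * (n - 2) : ℕ) * (-(Fintype.card F₀ : ℂ)) ^ Module.finrank F E := by
  have hJ : ∀ x ∈ fermatPairs F n, (-jacobiSum x.1 x.2) ^ Module.finrank F E =
      (-(Fintype.card F₀ : ℂ)) ^ Module.finrank F E := fun x hx => by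
    obtain ⟨⟨h1, h1'⟩, h3, h4, h5⟩ := mem_fermatPairs.mp hx
    rw [jacobiSum_pure h2 h3 h4 h5 (trivialOn_of_pow_eq_one h2 hn h1) (trivialOn_of_pow_eq_one h2 hn h1')]
  rw [fermatPoints_extension E hn0 (dvd_card_sub_one h2 hn), Finset.sum_congr rfl hJ, Finset.sum_const,
    card_fermatPairs (dvd_card_sub_one h2 hn), nsmul_eq_mul]

/-- **The Fermat curve is maximal.** -/
theorem fermatPoints_maximal (h2 : Module.finrank F₀ F = 2) (hn0 : 0 < n) (hn : n ∣ Fintype.card F₀ + 1) :
    fermatPoints F n = Fintype.card F₀ ^ 2 + 1 + (n - 1) * (n - 2) * Fintype.card F₀ := by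
  have h := fermatPoints_supersingular h2 hn0 hn F
  rw [Module.finrank_self, pow_one, pow_one, card_eq_sq h2, mul_neg, sub_neg_eq_add] at h
  exact_mod_cast h

/-- All the `ω` are equal. -/
theorem omegaValue_supersingular (h2 : Module.finrank F₀ F = 2) (hn : n ∣ Fintype.card F₀ + 1) {a : Fin m → F₀}
    (ha : ∀ i, a i ≠ 0) {ψ₀ : AddChar F₀ ℂ} (hψ : ψ₀.IsPrimitive) {χ : Fin m → MulChar F ℂ}
    (hχ : χ ∈ charTuples F n m) :
    omegaValue (fun i => algebraMap F₀ F (a i)) (traceAddChar F ψ₀) χ =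
      (-(Fintype.card F₀ : ℂ)) ^ m / (Fintype.card F₀ : ℂ) ^ 2 := by
  obtain ⟨h, h1⟩ := mem_charTuples.mp hχ
  obtain ⟨x₀, hx₀, ht⟩ := exists_trace_zero (F := F) h2
  have hi : ∀ i, (χ i)⁻¹ (algebraMap F₀ F (a i)) * -gaussSum (χ i) (traceAddChar F ψ₀) =
      -(Fintype.card F₀ : ℂ) * χ i (Units.mk0 x₀ hx₀ : Fˣ) := fun i => by
    have ht' : TrivialOn F₀ (χ i)⁻¹ := trivialOn_of_pow_eq_one h2 hn (by rw [inv_pow, (h i).2, inv_one])
    rw [ht' _ (ha i), one_mul, gaussSum_pure h2 (h i).1 (trivialOn_of_pow_eq_one h2 hn (h i).2) hψ hx₀ ht,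
      Units.val_mk0, neg_mul]
  rw [omegaValue, Finset.prod_congr rfl fun i _ => hi i, Finset.prod_mul_distrib, ← prod_mulChar_apply, h1,
    MulChar.one_apply_coe, mul_one, Finset.prod_const, Finset.card_univ, Fintype.card_fin, card_eq_sq h2,
    Nat.cast_pow]

/-- **Fermat hypersurfaces of every dimension.** -/
theorem diagonalPoints_supersingular (h2 : Module.finrank F₀ F = 2) (hn0 : 0 < n) (hn : n ∣ Fintype.card F₀ + 1)
    (hm : 2 ≤ m) {a : Fin m → F₀} (ha : ∀ i, a i ≠ 0) (E : Type*) [Field E] [Fintype E] [Algebra F E] :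
    (diagonalPoints (fun i => algebraMap F E (algebraMap F₀ F (a i))) n : ℂ) =
      (∑ j ∈ Finset.range (m - 1), ((Fintype.card F : ℂ) ^ j) ^ Module.finrank F E) +
        (-1) ^ m * (charTuples F n m).card *
          ((-1) ^ m * (Fintype.card F₀ : ℂ) ^ (m - 2)) ^ Module.finrank F E := by
  set ψ := AddChar.FiniteField.primitiveChar_to_Complex F₀
  have hψ : ψ.IsPrimitive := AddChar.FiniteField.primitiveChar_to_Complex_isPrimitive F₀
  have hq : (Fintype.card F₀ : ℂ) ≠ 0 := Nat.cast_ne_zero.mpr Fintype.card_ne_zero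
  have hval : (-(Fintype.card F₀ : ℂ)) ^ m / (Fintype.card F₀ : ℂ) ^ 2 =
      (-1) ^ m * (Fintype.card F₀ : ℂ) ^ (m - 2) := by
    rw [div_eq_iff (pow_ne_zero 2 hq), mul_assoc, ← pow_add, Nat.sub_add_cancel hm, neg_pow]
  rw [diagonalPoints_extension E hn0 (dvd_card_sub_one h2 hn) (by omega)
    (fun i => (map_ne_zero_iff _ (algebraMap F₀ F).injective).mpr (ha i)) (traceAddChar_isPrimitive F hψ),
    Finset.sum_congr (s₁ := charTuples F n m) rfl fun χ hχ => show omegaValue (fun i => algebraMap F₀ F (a i))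
        (traceAddChar F ψ) χ ^ Module.finrank F E =
        ((-1) ^ m * (Fintype.card F₀ : ℂ) ^ (m - 2)) ^ Module.finrank F E by
      rw [omegaValue_supersingular h2 hn ha hψ hχ, hval],
    Finset.sum_const, nsmul_eq_mul]
  ring

end FA.SupersingularFermat
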